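import Mathlib

/-!
# Row S27, block DIM, leaf D1 (helper358) — algebra core

* `finrank_cotangentSpace_eq_finrank_kaehler` : for a local `k`-algebra `R` (`k` a field) whose
  residue field is `k` (i.e. `k → R/𝔪` is surjective), `𝔪/𝔪² ≃ κ ⊗_R Ω[R⁄k]`; hence if `Ω[R⁄k]`
  is free, `dim_κ 𝔪/𝔪² = rank_R Ω[R⁄k]`.
* `finrank_kaehler_of_formallyEtale` : `Ω` of a standard smooth algebra of relative dimension `n`
  stays free of rank `n` after a formally etale extension (e.g. a localization).
Mathlib only.
-/

set_option autoImplicit false

namespace Fermat.Agent.S27.H358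

open TensorProduct KaehlerDifferential IsLocalRing

section Local

variable (k : Type*) [Field k] (R : Type*) [CommRing R] [IsLocalRing R] [Algebra k R]

/-- For a local `k`-algebra with residue field `k`, the conormal map
`𝔪/𝔪² → κ ⊗ Ω[R⁄k]` is bijective. -/
theorem kerCotangentToTensor_residueField_bijective
    (h : Function.Surjective (algebraMap k (ResidueField R))) :
    Function.Bijective (kerCotangentToTensor k R (ResidueField R)) := by
  have hsurj : Function.Surjective (algebraMap R (ResidueField R)) := residue_surjective
  constructor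
  · let e : k ≃ₐ[k] ResidueField R :=
      AlgEquiv.ofBijective (Algebra.ofId k _) ⟨(algebraMap k _).injective, h⟩
    let g : ResidueField R →ₐ[k] R ⧸ (RingHom.ker (algebraMap R (ResidueField R)) ^ 2) :=
      (Algebra.ofId k _).comp e.symm.toAlgHom
    have hg : (IsScalarTower.toAlgHom k R (ResidueField R)).kerSquareLift.comp g =
        AlgHom.id k _ := by
      ext x
      obtain ⟨c, rfl⟩ := h x
      simp only [AlgHom.commutes]
    obtain ⟨l, hl⟩ := (retractionKerCotangentToTensorEquivSection (R := k) hsurj).symm ⟨g, hg⟩
    exact Function.LeftInverse.injective (g := l) (fun x => LinearMap.congr_fun hl x)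
  · intro y
    have hex := exact_kerCotangentToTensor_mapBaseChange k R (ResidueField R) hsurj
    have : Subsingleton Ω[ResidueField R⁄k] := subsingleton_of_surjective k _ h
    exact (hex y).mp (Subsingleton.elim _ _)

/-- Cotangent modules of equal ideals. -/
theorem nonempty_cotangent_linearEquiv_of_eq {A : Type*} [CommRing A] (I J : Ideal A)
    (h : I = J) : Nonempty (I.Cotangent ≃ₗ[A] J.Cotangent) := by
  subst h
  exact ⟨LinearEquiv.refl _ _⟩

/-- For a local `k`-algebra with residue field `k`: `𝔪/𝔪² ≃ κ ⊗ Ω[R⁄k]`, `κ`-linearly. -/
theorem nonempty_cotangentSpace_linearEquiv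
    (h : Function.Surjective (algebraMap k (ResidueField R))) :
    Nonempty (CotangentSpace R ≃ₗ[ResidueField R] ResidueField R ⊗[R] Ω[R⁄k]) := by
  have hker : maximalIdeal R = RingHom.ker (algebraMap R (ResidueField R)) :=
    (Ideal.mk_ker (I := maximalIdeal R)).symm
  obtain ⟨e₀⟩ := nonempty_cotangent_linearEquiv_of_eq _ _ hker
  let e₁ := LinearEquiv.ofBijective _ (kerCotangentToTensor_residueField_bijective k R h)
  exact ⟨LinearEquiv.extendScalarsOfSurjective residue_surjective (e₀.trans e₁)⟩

/-- **Cotangent space = Kähler differentials** at a rational point: for a local `k`-algebra `R`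
with residue field `k` and `Ω[R⁄k]` free, `dim_κ 𝔪/𝔪² = rank_R Ω[R⁄k]`. -/
theorem finrank_cotangentSpace_eq_finrank_kaehler [Module.Free R Ω[R⁄k]]
    (h : Function.Surjective (algebraMap k (ResidueField R))) :
    Module.finrank (ResidueField R) (CotangentSpace R) = Module.finrank R Ω[R⁄k] := by
  obtain ⟨e⟩ := nonempty_cotangentSpace_linearEquiv k R h
  rw [e.finrank_eq, Module.finrank_baseChange]

end Local

section Etale

variable (k : Type*) [CommRing k] (B : Type*) [CommRing B] [Algebra k B]
  (T : Type*) [CommRing T] [Algebra k T] [Algebra B T] [IsScalarTower k B T]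

/-- `Ω` of a standard smooth algebra stays free after a formally etale extension. -/
theorem free_kaehler_of_formallyEtale [Algebra.IsStandardSmooth k B]
    [Algebra.FormallyEtale B T] : Module.Free T Ω[T⁄k] :=
  Module.Free.of_equiv (tensorKaehlerEquivOfFormallyEtale k B T)

/-- `Ω` of a standard smooth algebra of relative dimension `n` has rank `n` after a formally
etale extension (e.g. a localization). -/
theorem finrank_kaehler_of_formallyEtale (n : ℕ) [Algebra.IsStandardSmoothOfRelativeDimension n k B]
    [Algebra.FormallyEtale B T] [Nontrivial T] : Module.finrank T Ω[T⁄k] = n := by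
  have : Nontrivial B := (algebraMap B T).domain_nontrivial
  have : Algebra.IsStandardSmooth k B :=
    Algebra.IsStandardSmoothOfRelativeDimension.isStandardSmooth n
  rw [← (tensorKaehlerEquivOfFormallyEtale k B T).finrank_eq, Module.finrank_baseChange]
  have h := Algebra.IsStandardSmoothOfRelativeDimension.rank_kaehlerDifferential (R := k) (S := B) n
  exact Module.finrank_eq_of_rank_eq h

end Etale

end Fermat.Agent.S27.H358
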