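import Mathlib
import Fermat.Agent.S27.H358.CotangentKaehler

/-!
# Row S27, block DIM, leaf D1 (subtask 626, helper358)

`f : J ⟶ Spec k` smooth (`k` a field), `J` connected, `z` a `k`-point of `J` whose cotangent
space `𝔪_z/𝔪_z²` has dimension `g`.  Then `f` is smooth of relative dimension `g`.

* `localDim f x` : the rank of `Ω[O_{J,x}⁄k]` (the relative dimension at `x`).
* `localDim_eq_of_chart` : on a standard smooth chart of relative dimension `n`, `localDim = n`.
* `smoothOfRelativeDimension_of_localDim` : `J` connected, `localDim f z = g` ⇒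
  `SmoothOfRelativeDimension g f`.
* `localDim_eq_finrank_cotangentSpace` : at a point with residue field `k`,
  `localDim f x = dim_κ 𝔪_x/𝔪_x²`.
* `smoothOfRelativeDimension_of_finrank_cotangentSpace` : **D1**.
Mathlib only.
-/

set_option autoImplicit false
set_option linter.style.haveILetI false

universe u

open CategoryTheory AlgebraicGeometry TopologicalSpace Opposite IsLocalRing KaehlerDifferential

namespace Fermat.Agent.S27.H358

noncomputable section

variable {k : Type u} [Field k] {J : Scheme.{u}} (f : J ⟶ Spec (CommRingCat.of k))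

/-- The structure map `k → O_{J,x}`. -/
def stalkStr (x : J) : k →+* J.presheaf.stalk x :=
  ((Scheme.ΓSpecIso (CommRingCat.of k)).inv ≫ f.appTop ≫
    J.presheaf.germ ⊤ x (Opens.mem_top _)).hom

/-- The relative dimension of `f` at `x`: the rank of `Ω[O_{J,x}⁄k]`. -/
def localDim (x : J) : ℕ :=
  letI := (stalkStr f x).toAlgebra
  Module.finrank (J.presheaf.stalk x) Ω[J.presheaf.stalk x⁄k]

/-- Every nonempty open of `Spec k` is everything. -/
theorem opens_spec_eq_top (U : (Spec (CommRingCat.of k)).Opens)
    (y : Spec (CommRingCat.of k)) (hy : y ∈ U) : U = ⊤ := by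
  rw [eq_top_iff]
  intro z _
  have : z = y := Subsingleton.elim (α := PrimeSpectrum k) z y
  rw [this]
  exact hy

section Chart

variable {f} {x : J} {V : J.Opens}

/-- The `k`-algebra structure of a chart. -/
@[reducible] def chartAlgebra (e : V ≤ f ⁻¹ᵁ ⊤) : Algebra k Γ(J, V) :=
  ((f.appLE ⊤ V e).hom.comp (Scheme.ΓSpecIso (CommRingCat.of k)).inv.hom).toAlgebra

theorem chart_isScalarTower (hx : x ∈ V) (e : V ≤ f ⁻¹ᵁ ⊤) :
    @IsScalarTower k Γ(J, V) (J.presheaf.stalk x) (chartAlgebra e).toSMul
      (TopCat.Presheaf.algebra_section_stalk J.presheaf ⟨x, hx⟩).toSMul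
      (stalkStr f x).toAlgebra.toSMul := by
  letI := chartAlgebra e
  letI := (stalkStr f x).toAlgebra
  letI := TopCat.Presheaf.algebra_section_stalk J.presheaf ⟨x, hx⟩
  refine IsScalarTower.of_algebraMap_eq' ?_
  have h : f.appTop ≫ J.presheaf.germ ⊤ x (Opens.mem_top _) =
      f.appLE ⊤ V e ≫ J.presheaf.germ V x hx := by
    rw [Scheme.Hom.appLE, Category.assoc]
    erw [J.presheaf.germ_res]
    rfl
  change stalkStr f x = _
  rw [stalkStr, h]
  rfl

/-- The local ring at a point of a standard smooth chart: `Ω` is free. -/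
theorem free_kaehler_stalk_of_chart (hV : IsAffineOpen V) (hx : x ∈ V) (e : V ≤ f ⁻¹ᵁ ⊤)
    (h : (f.appLE ⊤ V e).hom.IsStandardSmooth) :
    letI := (stalkStr f x).toAlgebra
    Module.Free (J.presheaf.stalk x) Ω[J.presheaf.stalk x⁄k] := by
  letI algS : Algebra k (J.presheaf.stalk x) := (stalkStr f x).toAlgebra
  letI algB : Algebra k Γ(J, V) := chartAlgebra e
  letI algBS : Algebra Γ(J, V) (J.presheaf.stalk x) :=
    TopCat.Presheaf.algebra_section_stalk J.presheaf ⟨x, hx⟩
  haveI : IsScalarTower k Γ(J, V) (J.presheaf.stalk x) := chart_isScalarTower hx e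
  haveI : Algebra.IsStandardSmooth k Γ(J, V) :=
    RingHom.isStandardSmooth_respectsIso.2 (f.appLE ⊤ V e).hom
      (Scheme.ΓSpecIso (CommRingCat.of k)).symm.commRingCatIsoToRingEquiv h
  haveI := hV.isLocalization_stalk ⟨x, hx⟩
  haveI : Algebra.FormallyEtale Γ(J, V) (J.presheaf.stalk x) :=
    Algebra.FormallyEtale.of_isLocalization (hV.primeIdealOf ⟨x, hx⟩).asIdeal.primeCompl
  exact free_kaehler_of_formallyEtale k Γ(J, V) (J.presheaf.stalk x)

/-- On a standard smooth chart of relative dimension `n`, the local dimension is `n`. -/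
theorem localDim_eq_of_chart_top (hV : IsAffineOpen V) (hx : x ∈ V) (e : V ≤ f ⁻¹ᵁ ⊤) (n : ℕ)
    (h : (f.appLE ⊤ V e).hom.IsStandardSmoothOfRelativeDimension n) :
    localDim f x = n := by
  letI algS : Algebra k (J.presheaf.stalk x) := (stalkStr f x).toAlgebra
  letI algB : Algebra k Γ(J, V) := chartAlgebra e
  letI algBS : Algebra Γ(J, V) (J.presheaf.stalk x) :=
    TopCat.Presheaf.algebra_section_stalk J.presheaf ⟨x, hx⟩
  haveI : IsScalarTower k Γ(J, V) (J.presheaf.stalk x) := chart_isScalarTower hx e
  haveI : Algebra.IsStandardSmoothOfRelativeDimension n k Γ(J, V) :=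
    RingHom.isStandardSmoothOfRelativeDimension_respectsIso.2 (f.appLE ⊤ V e).hom
      (Scheme.ΓSpecIso (CommRingCat.of k)).symm.commRingCatIsoToRingEquiv h
  haveI := hV.isLocalization_stalk ⟨x, hx⟩
  haveI : Algebra.FormallyEtale Γ(J, V) (J.presheaf.stalk x) :=
    Algebra.FormallyEtale.of_isLocalization (hV.primeIdealOf ⟨x, hx⟩).asIdeal.primeCompl
  exact finrank_kaehler_of_formallyEtale k Γ(J, V) (J.presheaf.stalk x) n

end Chart

/-- On a standard smooth chart of relative dimension `n`, the local dimension is `n`. -/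
theorem localDim_eq_of_chart (x : J) (U : (Spec (CommRingCat.of k)).Opens) (V : J.Opens)
    (hV : IsAffineOpen V) (hx : x ∈ V) (e : V ≤ f ⁻¹ᵁ U) (n : ℕ)
    (h : (f.appLE U V e).hom.IsStandardSmoothOfRelativeDimension n) : localDim f x = n := by
  obtain rfl : U = ⊤ := opens_spec_eq_top U (f x) (e hx)
  exact localDim_eq_of_chart_top hV hx e n h

/-- A smooth morphism has standard smooth charts of some relative dimension. -/
theorem exists_chart [Smooth f] (x : J) :
    ∃ (n : ℕ) (U : (Spec (CommRingCat.of k)).Opens) (_ : IsAffineOpen U) (V : J.Opens)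
      (_ : IsAffineOpen V) (_ : x ∈ V) (e : V ≤ f ⁻¹ᵁ U),
      (f.appLE U V e).hom.IsStandardSmoothOfRelativeDimension n := by
  obtain ⟨U, hU, V, hV, hx, e, h⟩ := Smooth.exists_isStandardSmooth f x
  letI := (f.appLE U V e).hom.toAlgebra
  obtain ⟨ι, σ, hσ, hι, ⟨P⟩⟩ := (h : Algebra.IsStandardSmooth _ _)
  exact ⟨P.dimension, U, hU, V, hV, hx, e, ⟨ι, σ, hσ, hι, P, rfl⟩⟩

/-- The local dimension of a smooth morphism is locally constant. -/
theorem isLocallyConstant_localDim [Smooth f] : IsLocallyConstant (localDim f) := by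
  rw [IsLocallyConstant.iff_exists_open]
  intro x
  obtain ⟨n, U, hU, V, hV, hx, e, h⟩ := exists_chart f x
  refine ⟨V, V.isOpen, hx, fun y hy => ?_⟩
  rw [localDim_eq_of_chart f y U V hV hy e n h, localDim_eq_of_chart f x U V hV hx e n h]

/-- **D1, local dimension form.**  A smooth morphism to `Spec k` with connected source whose
local dimension at one point is `g` is smooth of relative dimension `g`. -/
theorem smoothOfRelativeDimension_of_localDim [Smooth f] [PreconnectedSpace J] (z : J) (g : ℕ)
    (hz : localDim f z = g) : SmoothOfRelativeDimension g f := by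
  have hconst : ∀ x, localDim f x = g := fun x => by
    rw [← hz]
    exact (isLocallyConstant_localDim f).apply_eq_of_preconnectedSpace x z
  refine ⟨fun x => ?_⟩
  obtain ⟨n, U, hU, V, hV, hx, e, h⟩ := exists_chart f x
  have hn : n = g := by rw [← localDim_eq_of_chart f x U V hV hx e n h, hconst x]
  subst hn
  exact ⟨U, hU, V, hV, hx, e, h⟩

/-- Conversely, the local dimension of a morphism smooth of relative dimension `g` is `g`. -/
theorem localDim_eq_of_smoothOfRelativeDimension (g : ℕ) [SmoothOfRelativeDimension g f]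
    (x : J) : localDim f x = g := by
  obtain ⟨U, hU, V, hV, hx, e, h⟩ :=
    SmoothOfRelativeDimension.exists_isStandardSmoothOfRelativeDimension (n := g) (f := f) x
  exact localDim_eq_of_chart f x U V hV hx e g h

/-- At a point with residue field `k` the local dimension of a smooth morphism is the
dimension of the cotangent space `𝔪_x/𝔪_x²`. -/
theorem localDim_eq_finrank_cotangentSpace [Smooth f] (x : J)
    (hsurj : Function.Surjective ((residue (J.presheaf.stalk x)).comp (stalkStr f x))) :
    localDim f x =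
      Module.finrank (ResidueField (J.presheaf.stalk x)) (CotangentSpace (J.presheaf.stalk x)) := by
  letI algS : Algebra k (J.presheaf.stalk x) := (stalkStr f x).toAlgebra
  obtain ⟨U, hU, V, hV, hx, e, h⟩ := Smooth.exists_isStandardSmooth f x
  obtain rfl : U = ⊤ := opens_spec_eq_top U (f x) (e hx)
  haveI : Module.Free (J.presheaf.stalk x) Ω[J.presheaf.stalk x⁄k] :=
    free_kaehler_stalk_of_chart hV hx e h
  exact (finrank_cotangentSpace_eq_finrank_kaehler k (J.presheaf.stalk x) hsurj).symm

section Rational

/-- A ring homomorphism from a local ring `R` to a nontrivial ring through which `k` surjects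
shows that `k` surjects onto the residue field of `R`. -/
theorem surjective_residue_comp_of_retraction {R L : Type*} [CommRing R] [IsLocalRing R]
    [CommRing L] [Nontrivial L] (φ : k →+* R) (ρ : R →+* L)
    (h : Function.Surjective (ρ.comp φ)) : Function.Surjective ((residue R).comp φ) := by
  intro y
  obtain ⟨r, rfl⟩ := residue_surjective y
  obtain ⟨c, hc⟩ := h (ρ r)
  refine ⟨c, ?_⟩
  have hker : r - φ c ∈ RingHom.ker ρ := by
    rw [RingHom.mem_ker, map_sub, sub_eq_zero]
    exact hc.symm
  have hne : RingHom.ker ρ ≠ ⊤ := RingHom.ker_ne_top ρ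
  have hmem : r - φ c ∈ maximalIdeal R := le_maximalIdeal hne hker
  have h0 : residue R (r - φ c) = 0 := (residue_eq_zero_iff _).mpr hmem
  rw [map_sub, sub_eq_zero] at h0
  exact h0.symm

/-- The germ map `Γ(Spec k, ⊤) → O_{Spec k, pt}` is surjective. -/
theorem germ_top_spec_surjective (pt : Spec (CommRingCat.of k)) :
    Function.Surjective
      ((Spec (CommRingCat.of k)).presheaf.germ ⊤ pt (Opens.mem_top _)).hom := by
  intro s
  obtain ⟨U, hU, t, rfl⟩ := (Spec (CommRingCat.of k)).presheaf.exists_germ_eq s
  obtain rfl : U = ⊤ := opens_spec_eq_top U pt hU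
  exact ⟨t, rfl⟩

/-- At the image of a `k`-point, the residue field is `k`. -/
theorem surjective_residue_stalkStr_of_section (z : Spec (CommRingCat.of k) ⟶ J)
    (hz : z ≫ f = 𝟙 _) (pt : Spec (CommRingCat.of k)) :
    Function.Surjective ((residue (J.presheaf.stalk (z pt))).comp (stalkStr f (z pt))) := by
  refine surjective_residue_comp_of_retraction (stalkStr f (z pt)) (z.stalkMap pt).hom ?_
  have hcomp : (Scheme.ΓSpecIso (CommRingCat.of k)).inv ≫ f.appTop ≫
      J.presheaf.germ ⊤ (z pt) (Opens.mem_top _) ≫ z.stalkMap pt =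
      (Scheme.ΓSpecIso (CommRingCat.of k)).inv ≫
        (Spec (CommRingCat.of k)).presheaf.germ ⊤ pt (Opens.mem_top _) := by
    have h1 : J.presheaf.germ ⊤ (z pt) (Opens.mem_top _) ≫ z.stalkMap pt =
        z.appTop ≫ (Spec (CommRingCat.of k)).presheaf.germ ⊤ pt (Opens.mem_top _) :=
      Scheme.Hom.germ_stalkMap z ⊤ pt (Opens.mem_top _)
    rw [h1, ← Category.assoc f.appTop, ← Scheme.Hom.comp_appTop, hz]
    simp
  have hfun : (z.stalkMap pt).hom.comp (stalkStr f (z pt)) =
      ((Scheme.ΓSpecIso (CommRingCat.of k)).inv ≫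
        (Spec (CommRingCat.of k)).presheaf.germ ⊤ pt (Opens.mem_top _)).hom := by
    rw [← hcomp]
    rfl
  rw [hfun, CommRingCat.hom_comp, RingHom.coe_comp]
  refine (germ_top_spec_surjective pt).comp ?_
  exact (ConcreteCategory.bijective_of_isIso (Scheme.ΓSpecIso (CommRingCat.of k)).inv).2

end Rational

/-- **D1** (subtask 626).  `f : J ⟶ Spec k` smooth, `J` connected, `z` a `k`-point of `J` whose
cotangent space `𝔪/𝔪²` has dimension `g` over the residue field.  Then `f` is smooth of relative
dimension `g`. -/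
theorem smoothOfRelativeDimension_of_finrank_cotangentSpace [Smooth f] [PreconnectedSpace J]
    (z : Spec (CommRingCat.of k) ⟶ J) (hz : z ≫ f = 𝟙 _) (pt : Spec (CommRingCat.of k)) (g : ℕ)
    (hg : Module.finrank (ResidueField (J.presheaf.stalk (z pt)))
      (CotangentSpace (J.presheaf.stalk (z pt))) = g) :
    SmoothOfRelativeDimension g f :=
  smoothOfRelativeDimension_of_localDim f (z pt) g
    ((localDim_eq_finrank_cotangentSpace f (z pt)
      (surjective_residue_stalkStr_of_section f z hz pt)).trans hg)

/-- Converse of **D1**: if `f` is smooth of relative dimension `g`, the cotangent space at every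
`k`-point has dimension `g`. -/
theorem finrank_cotangentSpace_of_smoothOfRelativeDimension (g : ℕ)
    [SmoothOfRelativeDimension g f] (z : Spec (CommRingCat.of k) ⟶ J) (hz : z ≫ f = 𝟙 _)
    (pt : Spec (CommRingCat.of k)) :
    Module.finrank (ResidueField (J.presheaf.stalk (z pt)))
      (CotangentSpace (J.presheaf.stalk (z pt))) = g := by
  haveI : Smooth f := SmoothOfRelativeDimension.smooth g f
  rw [← localDim_eq_finrank_cotangentSpace f (z pt)
    (surjective_residue_stalkStr_of_section f z hz pt)]
  exact localDim_eq_of_smoothOfRelativeDimension f g (z pt)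

end

end Fermat.Agent.S27.H358
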