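import Mathlib
import Fermat.Agent.S27.H566.TangentRank

/-!
# Row S27, block DIM, leaf D1 (helper358) — tangent spaces and formally etale maps

`R → R'` formally etale `k`-algebras (e.g. a localization), `x' : R' →ₐ[k] k` a `k`-point and
`x = x' ∘ (R → R')`.  Restriction of derivations `Der_k(R', k_{x'}) → Der_k(R, k_x)` is a
`k`-linear bijection; in particular both tangent spaces have the same dimension.
Mathlib + `H566/TangentRank.lean` (`pointModule`).
-/

set_option autoImplicit false
set_option linter.style.haveILetI false

namespace Fermat.Agent.S27.H358

open Fermat.Agent.S27.H566 KaehlerDifferential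

section DerEtale

variable {k : Type*} [Field k] (R R' : Type*) [CommRing R] [CommRing R'] [Algebra k R]
  [Algebra k R'] [Algebra R R'] [IsScalarTower k R R'] [Algebra.FormallyEtale R R']

/-- The induced point of `R`. -/
abbrev restrictPoint (x' : R' →ₐ[k] k) : R →ₐ[k] k := x'.comp (IsScalarTower.toAlgHom k R R')

omit [Algebra.FormallyEtale R R'] in
theorem pointModule_tower (x' : R' →ₐ[k] k) :
    letI := pointModule x'
    letI := pointModule (restrictPoint R R' x')
    IsScalarTower R R' k := by
  letI := pointModule x'
  letI := pointModule (restrictPoint R R' x')
  refine ⟨fun r s a => ?_⟩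
  show x' (r • s) * a = x' (algebraMap R R' r) * (x' s * a)
  rw [Algebra.smul_def, map_mul, mul_assoc]

/-- Restriction of derivations along `R → R'`. -/
noncomputable def restrictDer (x' : R' →ₐ[k] k) :
    letI := pointModule x'
    letI := pointModule (restrictPoint R R' x')
    haveI := pointModule_isScalarTower x'
    haveI := pointModule_smulCommClass x'
    haveI := pointModule_isScalarTower (restrictPoint R R' x')
    haveI := pointModule_smulCommClass (restrictPoint R R' x')
    Derivation k R' k →ₗ[k] Derivation k R k :=
  letI := pointModule x'
  letI := pointModule (restrictPoint R R' x')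
  haveI := pointModule_isScalarTower x'
  haveI := pointModule_smulCommClass x'
  haveI := pointModule_isScalarTower (restrictPoint R R' x')
  haveI := pointModule_smulCommClass (restrictPoint R R' x')
  haveI := pointModule_tower R R' x'
  { toFun := fun d => d.compAlgebraMap R
    map_add' := fun _ _ => rfl
    map_smul' := fun _ _ => rfl }

omit [Algebra.FormallyEtale R R'] in
theorem restrictDer_apply (x' : R' →ₐ[k] k)
    (d : @Derivation k R' k _ _ _ _ (pointModule x') _) (r : R) :
    restrictDer R R' x' d r = d (algebraMap R R' r) := rfl

theorem restrictDer_bijective (x' : R' →ₐ[k] k) :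
    Function.Bijective (restrictDer R R' x') := by
  letI := pointModule x'
  letI := pointModule (restrictPoint R R' x')
  haveI := pointModule_isScalarTower x'
  haveI := pointModule_smulCommClass x'
  haveI := pointModule_isScalarTower (restrictPoint R R' x')
  haveI := pointModule_smulCommClass (restrictPoint R R' x')
  haveI := pointModule_tower R R' x'
  have hbc : IsBaseChange R' (KaehlerDifferential.map k k R R') :=
    KaehlerDifferential.isBaseChange_of_formallyEtale k R R'
  constructor
  · rw [injective_iff_map_eq_zero]
    intro d hd
    have hl : d.liftKaehlerDifferential = 0 := by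
      refine hbc.algHom_ext _ _ fun ω => ?_
      have h0 : (d.liftKaehlerDifferential.restrictScalars R).comp
          (KaehlerDifferential.map k k R R') = 0 := by
        refine Derivation.liftKaehlerDifferential_unique _ _ ?_
        ext r
        have h1 : ((d.liftKaehlerDifferential.restrictScalars R).comp
            (KaehlerDifferential.map k k R R')) (KaehlerDifferential.D k R r) =
            d (algebraMap R R' r) := by
          rw [LinearMap.comp_apply, KaehlerDifferential.map_D, LinearMap.restrictScalars_apply,
            Derivation.liftKaehlerDifferential_comp_D]
        have h2 : d (algebraMap R R' r) = 0 := DFunLike.congr_fun hd r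
        show ((d.liftKaehlerDifferential.restrictScalars R).comp
            (KaehlerDifferential.map k k R R')) (KaehlerDifferential.D k R r) =
            (0 : Ω[R⁄k] →ₗ[R] k) (KaehlerDifferential.D k R r)
        rw [h1, h2, LinearMap.zero_apply]
      simpa using LinearMap.congr_fun h0 ω
    ext s
    have := Derivation.liftKaehlerDifferential_comp_D d s
    rw [← this, hl, LinearMap.zero_apply]
    rfl
  · intro d
    let l' : Ω[R'⁄k] →ₗ[R'] k := hbc.lift d.liftKaehlerDifferential
    refine ⟨l'.compDer (KaehlerDifferential.D k R'), ?_⟩
    ext r
    rw [restrictDer_apply]
    show l' (KaehlerDifferential.D k R' (algebraMap R R' r)) = d r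
    rw [← KaehlerDifferential.map_D k k R R', hbc.lift_eq,
      Derivation.liftKaehlerDifferential_comp_D]

/-- The tangent spaces at `x'` and at its restriction have the same dimension. -/
theorem finrank_derivation_restrict (x' : R' →ₐ[k] k) :
    letI := pointModule x'
    letI := pointModule (restrictPoint R R' x')
    haveI := pointModule_isScalarTower x'
    haveI := pointModule_smulCommClass x'
    haveI := pointModule_isScalarTower (restrictPoint R R' x')
    haveI := pointModule_smulCommClass (restrictPoint R R' x')
    Module.finrank k (Derivation k R' k) = Module.finrank k (Derivation k R k) :=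
  (LinearEquiv.ofBijective _ (restrictDer_bijective R R' x')).finrank_eq

end DerEtale

end Fermat.Agent.S27.H358
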