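import Mathlib
import Fermat.Agent.S27.Dim.Spec
import Fermat.Agent.S27.H358.SmoothDim
import Fermat.Agent.S27.H358.DerLocal

/-!
# Row S27, block DIM, leaf D1 in the EXACT shape `Dim.Stmt.D1 k` (subtask 626, helper358)

`f : J ⟶ Spec k` smooth, `J` connected, with a tangent chart of dimension `g`
(`HasTangentChart f g`: an affine open chart `Spec R ⊆ J` with a `k`-point `x` such that
`dim_k Der_k(R, k_x) = g`).  Then `f` is smooth of relative dimension `g`.
-/

set_option autoImplicit false
set_option linter.style.haveILetI false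

universe u

open CategoryTheory AlgebraicGeometry TopologicalSpace Opposite

namespace Fermat.Agent.S27.H358

open Fermat.Agent.S25 Fermat.Agent.S27.H566 Fermat.Agent.S27.Dim

noncomputable section

section Transfer

variable {k : Type u} [Field k] {J : Scheme.{u}} (f : J ⟶ Spec (CommRingCat.of k))

/-- **Chart transfer.**  If the restriction of `f` along an open immersion `j : Y ⟶ J` is smooth
of relative dimension `n`, the local dimension of `f` at the points of the image is `n`. -/
theorem localDim_eq_of_isOpenImmersion {Y : Scheme.{u}} (j : Y ⟶ J) [IsOpenImmersion j] (n : ℕ)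
    [SmoothOfRelativeDimension n (j ≫ f)] (y : Y) : localDim f (j y) = n := by
  obtain ⟨U, hU, W, hW, hy, e, h⟩ :=
    SmoothOfRelativeDimension.exists_isStandardSmoothOfRelativeDimension (n := n)
      (f := j ≫ f) y
  have hV : IsAffineOpen (j ''ᵁ W) := hW.image_of_isOpenImmersion j
  have hyV : j y ∈ j ''ᵁ W := ⟨y, hy, rfl⟩
  have e₁ : j ''ᵁ W ≤ f ⁻¹ᵁ U := by
    rintro _ ⟨w, hw, rfl⟩
    exact e hw
  have e₂ : W ≤ j ⁻¹ᵁ (j ''ᵁ W) := fun w hw => ⟨w, hw, rfl⟩
  have hcomp : f.appLE U (j ''ᵁ W) e₁ ≫ j.appLE (j ''ᵁ W) W e₂ = (j ≫ f).appLE U W e :=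
    Scheme.Hom.appLE_comp_appLE j f U (j ''ᵁ W) W e₁ e₂
  have hiso : IsIso (j.appLE (j ''ᵁ W) W e₂) := by
    have h1 := Scheme.Hom.appIso_inv_appLE j (U := W) (V := W) e₂
    have h2 : IsIso ((j.appIso W).inv ≫ j.appLE (j ''ᵁ W) W e₂) := by
      rw [h1]
      have hid : ∀ (hle : W ≤ W), (homOfLE hle : W ⟶ W) = 𝟙 W := fun _ =>
        Subsingleton.elim _ _
      rw [hid, op_id, Y.presheaf.map_id]
      infer_instance
    exact IsIso.of_isIso_comp_left (j.appIso W).inv _
  rw [← hcomp] at h
  have h' : (f.appLE U (j ''ᵁ W) e₁).hom.IsStandardSmoothOfRelativeDimension n :=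
    (RingHom.isStandardSmoothOfRelativeDimension_respectsIso (n := n)).cancel_right_isIso
      (f.appLE U (j ''ᵁ W) e₁) (j.appLE (j ''ᵁ W) W e₂) |>.mp h
  exact localDim_eq_of_chart f (j y) U (j ''ᵁ W) hV hyV e₁ n h'

end Transfer

section Algebra

variable {k : Type u} [Field k] {R : Type u} [CommRing R] [Algebra k R]

/-- A smooth `k`-algebra with a `k`-point `x` has a standard smooth localization `R_t`,
`x t ≠ 0`. -/
theorem exists_isStandardSmooth_away [Algebra.Smooth k R] (x : R →ₐ[k] k) :
    ∃ t : R, x t ≠ 0 ∧ Algebra.IsStandardSmooth k (Localization.Away t) := by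
  have hs : (algebraMap k R).Smooth := RingHom.smooth_algebraMap.mpr inferInstance
  rw [RingHom.smooth_iff_locally_isStandardSmooth] at hs
  obtain ⟨s, hspan, hs⟩ := hs
  have hex : ∃ t ∈ s, x t ≠ 0 := by
    by_contra hcon
    push Not at hcon
    have hle : Ideal.span s ≤ RingHom.ker x.toRingHom :=
      Ideal.span_le.mpr fun t ht => (RingHom.mem_ker).mpr (hcon t ht)
    rw [hspan, top_le_iff] at hle
    exact (RingHom.ker_ne_top x.toRingHom) hle
  obtain ⟨t, ht, hxt⟩ := hex
  refine ⟨t, hxt, ?_⟩
  have h := hs t ht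
  rw [← IsScalarTower.algebraMap_eq] at h
  exact RingHom.isStandardSmooth_algebraMap.mp h

/-- **Step 2.**  A smooth `k`-algebra whose tangent space at the `k`-point `x` has dimension `g`
has a localization `R_t`, `x t ≠ 0`, which is standard smooth of relative dimension `g`. -/
theorem exists_isStandardSmoothOfRelativeDimension_away [Algebra.Smooth k R] (x : R →ₐ[k] k)
    (g : ℕ) (hx : TangentDim x g) :
    ∃ t : R, x t ≠ 0 ∧ Algebra.IsStandardSmoothOfRelativeDimension g k (Localization.Away t) := by
  obtain ⟨t, hxt, hstd⟩ := exists_isStandardSmooth_away x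
  refine ⟨t, hxt, ?_⟩
  have hunit : ∀ y : Submonoid.powers t, IsUnit (x y) := by
    rintro ⟨_, n, rfl⟩
    rw [map_pow]
    exact (isUnit_iff_ne_zero.mpr hxt).pow n
  let x' : Localization.Away t →ₐ[k] k :=
    IsLocalization.liftAlgHom (M := Submonoid.powers t) (f := x) hunit
  have hxx : restrictPoint R (Localization.Away t) x' = x := by
    ext r
    exact IsLocalization.lift_eq hunit r
  haveI : Algebra.FormallyEtale R (Localization.Away t) :=
    Algebra.FormallyEtale.of_isLocalization (Submonoid.powers t)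
  have hfin := finrank_derivation_restrict R (Localization.Away t) x'
  rw [hxx] at hfin
  exact isStandardSmoothOfRelativeDimension_of_finrank_derivation x' g (hfin.trans hx)

end Algebra

/-- **D1** in the exact shape of `Dim/Spec.lean`. -/
theorem d1 (k : Type u) [Field k] : Dim.Stmt.D1 k := by
  intro J f g hsm hconn hchart
  obtain ⟨R, _, _, j, _, hj, x, hx⟩ := hchart
  have hsmS : Smooth (Spec.map (CommRingCat.ofHom (algebraMap k R))) := by
    have : Smooth (j ≫ f) := inferInstance
    rwa [hj] at this
  haveI : Algebra.Smooth k R :=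
    RingHom.smooth_algebraMap.mp ((HasRingHomProperty.Spec_iff (P := @Smooth)).mp hsmS)
  obtain ⟨t, hxt, hstd⟩ := exists_isStandardSmoothOfRelativeDimension_away x g hx
  -- the chart `Spec R_t ⟶ Spec R ⟶ J`
  let ι : Spec (CommRingCat.of (Localization.Away t)) ⟶ Spec (CommRingCat.of R) :=
    Spec.map (CommRingCat.ofHom (algebraMap R (Localization.Away t)))
  haveI : IsOpenImmersion ι := inferInstanceAs
    (IsOpenImmersion (Spec.map (CommRingCat.ofHom (algebraMap R (Localization.Away t)))))
  have hι : (ι ≫ j) ≫ f = specStr k (Localization.Away t) := by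
    rw [Category.assoc, hj, specStr, specStr, ← Spec.map_comp, ← CommRingCat.ofHom_comp,
      ← IsScalarTower.algebraMap_eq]
  haveI : SmoothOfRelativeDimension g ((ι ≫ j) ≫ f) := by
    rw [hι, specStr, HasRingHomProperty.Spec_iff (P := @SmoothOfRelativeDimension g)]
    exact RingHom.locally_of (RingHom.isStandardSmoothOfRelativeDimension_respectsIso (n := g)) _
      ((RingHom.isStandardSmoothOfRelativeDimension_algebraMap g).mpr hstd)
  -- a point of the chart
  haveI : Nontrivial (Localization.Away t) := by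
    refine ⟨⟨1, 0, fun h => ?_⟩⟩
    have hunit : ∀ y : Submonoid.powers t, IsUnit (x y) := by
      rintro ⟨_, n, rfl⟩
      rw [map_pow]
      exact (isUnit_iff_ne_zero.mpr hxt).pow n
    have := congrArg (IsLocalization.lift (M := Submonoid.powers t) hunit) h
    rw [map_one, map_zero] at this
    exact one_ne_zero this
  obtain ⟨y⟩ : Nonempty (Spec (CommRingCat.of (Localization.Away t))) := inferInstance
  haveI : PreconnectedSpace J := hconn.toPreconnectedSpace
  exact smoothOfRelativeDimension_of_localDim f ((ι ≫ j) y) g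
    (localDim_eq_of_isOpenImmersion f (ι ≫ j) g y)

end

end Fermat.Agent.S27.H358
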